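/-
GATE-K / K1(a) (helper42): the Atkin–Lehner matrix `W_q = [[q x, y], [N, q]]` (`N = q N'`,
`q x - N' y = 1`) in `GL(2, ℝ)⁺` and the two function identities

  `j(d · W_q τ) = j(q d · τ)`,   `j(q d · W_q τ) = j(d · τ)`     (`d ∣ N'`)

(pure `SL(2, ℤ)`-invariance of `j`).
-/
import Mathlib
import Fermat.Agent.GJ.J2.MerGL
import Fermat.Agent.S28.CuspExpansion2

set_option autoImplicit false

open UpperHalfPlane Complex
open scoped MatrixGroups

noncomputable section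

namespace Fermat.Agent.GK.AL

open Fermat.Agent.S28 Fermat.Agent.S28.CuspExp Fermat.Agent.GJ.MerGL

/-- Bezout data for the Atkin–Lehner matrix: `q x - N' y = 1`. -/
structure WData (q N' : ℕ) where
  x : ℤ
  y : ℤ
  rel : (q : ℤ) * x - (N' : ℤ) * y = 1

theorem exists_wData {q N' : ℕ} (h : Nat.Coprime q N') : Nonempty (WData q N') := by
  have h1 := Int.gcd_eq_gcd_ab (q : ℤ) (N' : ℤ)
  have h2 : Int.gcd (q : ℤ) (N' : ℤ) = 1 := by
    rw [Int.gcd_natCast_natCast]; exact h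
  rw [h2] at h1
  refine ⟨⟨Int.gcdA q N', -Int.gcdB q N', ?_⟩⟩
  push_cast at h1
  linarith

variable {q N' : ℕ}

/-- the real matrix `[[q x, y], [q N', q]]` -/
def wMat (D : WData q N') : Matrix (Fin 2) (Fin 2) ℝ :=
  !![(q : ℝ) * D.x, (D.y : ℝ); (q : ℝ) * N', (q : ℝ)]

theorem det_wMat (D : WData q N') : (wMat D).det = q := by
  have h : ((q : ℝ) * D.x - (N' : ℝ) * D.y) = 1 := by exact_mod_cast D.rel
  rw [wMat, Matrix.det_fin_two_of]
  linear_combination (q : ℝ) * h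

/-- the Atkin–Lehner matrix as an element of `GL(2, ℝ)` -/
def wGL (hq : 0 < q) (D : WData q N') : GL (Fin 2) ℝ :=
  Matrix.GeneralLinearGroup.mkOfDetNeZero (wMat D) (by
    rw [det_wMat]; exact_mod_cast hq.ne')

theorem det_wGL (hq : 0 < q) (D : WData q N') : (wGL hq D).det.val = q := by
  show (wMat D).det = q
  exact det_wMat D

/-- the Atkin–Lehner matrix as an element of `GL(2, ℝ)⁺` -/
def wP (hq : 0 < q) (D : WData q N') : P :=
  ⟨wGL hq D, by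
    show 0 < (wGL hq D).det.val
    rw [det_wGL]; exact_mod_cast hq⟩

theorem coe_wP_smul (hq : 0 < q) (D : WData q N') (τ : ℍ) :
    ((wP hq D • τ : ℍ) : ℂ) =
      ((q : ℂ) * D.x * τ + D.y) / ((q : ℂ) * N' * τ + q) := by
  have hdet : 0 < (wGL hq D).det.val := by rw [det_wGL]; exact_mod_cast hq
  rw [P_smul_def]
  show ((wGL hq D • τ : ℍ) : ℂ) = _
  rw [UpperHalfPlane.coe_smul_of_det_pos hdet]
  simp [UpperHalfPlane.num, UpperHalfPlane.denom, wGL, wMat]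

/-- the denominator `q N' τ + q` does not vanish -/
theorem wden_ne_zero (hq : 0 < q) (τ : ℍ) : (q : ℂ) * N' * τ + q ≠ 0 := by
  intro h
  have h1 : (q : ℂ) * ((N' : ℂ) * τ + 1) = 0 := by rw [← h]; ring
  have hq' : (q : ℂ) ≠ 0 := by exact_mod_cast hq.ne'
  have h2 : (N' : ℂ) * τ + 1 = 0 := (mul_eq_zero.mp h1).resolve_left hq'
  have h3 := congrArg Complex.im h2
  have h4 := congrArg Complex.re h2
  simp at h3 h4
  rcases h3 with h3 | h3
  · rw [h3] at h4; simp at h4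
  · exact τ.im_ne_zero h3

section Identities

variable (hq : 0 < q) (D : WData q N') {d : ℕ} (hd : 0 < d) (hdN : d ∣ N')

/-- the matrix `[[x, d y], [N'/d, q]] ∈ SL(2, ℤ)` -/
def mOne : SL(2, ℤ) :=
  ⟨!![D.x, (d : ℤ) * D.y; ((N' / d : ℕ) : ℤ), (q : ℤ)], by
    obtain ⟨e, rfl⟩ := hdN
    rw [Matrix.det_fin_two_of, Nat.mul_div_cancel_left _ hd]
    have := D.rel
    push_cast at this ⊢
    linarith⟩

/-- the matrix `[[q x, d y], [N'/d, 1]] ∈ SL(2, ℤ)` -/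
def mTwo : SL(2, ℤ) :=
  ⟨!![(q : ℤ) * D.x, (d : ℤ) * D.y; ((N' / d : ℕ) : ℤ), 1], by
    obtain ⟨e, rfl⟩ := hdN
    rw [Matrix.det_fin_two_of, Nat.mul_div_cancel_left _ hd]
    have := D.rel
    push_cast at this ⊢
    linarith⟩

theorem wden_ne_zero' (τ : ℍ) : (N' : ℂ) * τ + 1 ≠ 0 := by
  intro h2
  have h3 := congrArg Complex.im h2
  have h4 := congrArg Complex.re h2
  simp at h3 h4
  rcases h3 with h3 | h3
  · rw [h3] at h4; simp at h4
  · exact τ.im_ne_zero h3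

theorem dilate_wP_smul (τ : ℍ) :
    dilate d hd (wP hq D • τ) = mOne D hd hdN • dilate (q * d) (Nat.mul_pos hq hd) τ := by
  apply UpperHalfPlane.ext
  rw [coe_dilate, coe_wP_smul, UpperHalfPlane.coe_specialLinearGroup_apply, coe_dilate]
  obtain ⟨e, rfl⟩ := hdN
  have hden := wden_ne_zero (N' := d * e) hq τ
  have hden' := wden_ne_zero' (N' := d * e) τ
  have hd' : (d : ℂ) ≠ 0 := by exact_mod_cast hd.ne'
  have hq' : (q : ℂ) ≠ 0 := by exact_mod_cast hq.ne'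
  simp only [mOne, Matrix.SpecialLinearGroup.coe_mk, Matrix.of_apply, Matrix.cons_val',
    Matrix.cons_val_zero, Matrix.cons_val_one, Matrix.empty_val', Matrix.cons_val_fin_one,
    Nat.mul_div_cancel_left _ hd]
  have hden2 : ((algebraMap ℤ ℝ ((e : ℕ) : ℤ) : ℝ) : ℂ) * (((q * d : ℕ) : ℂ) * (τ : ℂ)) +
      ((algebraMap ℤ ℝ (q : ℤ) : ℝ) : ℂ) = (q : ℂ) * ((d * e : ℕ) : ℂ) * τ + q := by
    push_cast
    simp
    ring
  have hnum : ((algebraMap ℤ ℝ D.x : ℝ) : ℂ) * (((q * d : ℕ) : ℂ) * (τ : ℂ)) +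
      ((algebraMap ℤ ℝ ((d : ℤ) * D.y) : ℝ) : ℂ) =
      (d : ℂ) * ((q : ℂ) * D.x * τ + D.y) := by
    push_cast
    simp
    ring
  rw [hden2, hnum, mul_div_assoc]

theorem dilate_mul_wP_smul (τ : ℍ) :
    dilate (q * d) (Nat.mul_pos hq hd) (wP hq D • τ) = mTwo D hd hdN • dilate d hd τ := by
  apply UpperHalfPlane.ext
  rw [coe_dilate, coe_wP_smul, UpperHalfPlane.coe_specialLinearGroup_apply, coe_dilate]
  obtain ⟨e, rfl⟩ := hdN
  have hden := wden_ne_zero (N' := d * e) hq τ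
  have hden3 := wden_ne_zero' (N' := d * e) τ
  have hd' : (d : ℂ) ≠ 0 := by exact_mod_cast hd.ne'
  have hq' : (q : ℂ) ≠ 0 := by exact_mod_cast hq.ne'
  simp only [mTwo, Matrix.SpecialLinearGroup.coe_mk, Matrix.of_apply, Matrix.cons_val',
    Matrix.cons_val_zero, Matrix.cons_val_one, Matrix.empty_val', Matrix.cons_val_fin_one,
    Nat.mul_div_cancel_left _ hd]
  have hden2 : ((algebraMap ℤ ℝ ((e : ℕ) : ℤ) : ℝ) : ℂ) * ((d : ℂ) * (τ : ℂ)) +
      ((algebraMap ℤ ℝ (1 : ℤ) : ℝ) : ℂ) = ((d * e : ℕ) : ℂ) * τ + 1 := by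
    push_cast
    simp
    ring
  have hnum : ((algebraMap ℤ ℝ ((q : ℤ) * D.x) : ℝ) : ℂ) * ((d : ℂ) * (τ : ℂ)) +
      ((algebraMap ℤ ℝ ((d : ℤ) * D.y) : ℝ) : ℂ) =
      (d : ℂ) * ((q : ℂ) * D.x * τ + D.y) := by
    push_cast
    simp
    ring
  have hden4 : (q : ℂ) * ((d * e : ℕ) : ℂ) * τ + q = q * (((d * e : ℕ) : ℂ) * τ + 1) := by ring
  rw [hden2, hnum, hden4]
  push_cast
  field_simp

/-- **`j(d · W τ) = j(q d · τ)`** for `d ∣ N'` -/
theorem jDil_wP_smul (hdN : d ∣ N') (τ : ℍ) :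
    jDil d hd (wP hq D • τ) = jDil (q * d) (Nat.mul_pos hq hd) τ := by
  rw [jDil, jDil, dilate_wP_smul hq D hd hdN, jFun_smul]

/-- **`j(q d · W τ) = j(d · τ)`** for `d ∣ N'` -/
theorem jDil_mul_wP_smul (hdN : d ∣ N') (τ : ℍ) :
    jDil (q * d) (Nat.mul_pos hq hd) (wP hq D • τ) = jDil d hd τ := by
  rw [jDil, jDil, dilate_mul_wP_smul hq D hd hdN, jFun_smul]

end Identities

end Fermat.Agent.GK.AL
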