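/-
GATE-K / K1(a) (helper42): the Atkin–Lehner automorphism `W_q` of the function field
`F_N = ℚ̄(j(q^d) : d ∣ N)` of `X₀(N)` for a prime `q ∥ N`:

  `wAut : FN N ≃ₐ[Kbar] FN N`,   `wAut (gen d) = gen (swapIdx d)`,   `wAut ∘ wAut = id`,

where `swapIdx d = q d` if `q ∤ d` and `d / q` if `q ∣ d`; in the realisation of `F_N` by
meromorphic functions on `ℍ` it is `f ↦ f ∘ W_q` (`realize_wAut`).
-/
import Mathlib
import Fermat.Agent.GK.AL.WMatrix
import Fermat.Agent.S24_helper82.Realize

set_option autoImplicit false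

open UpperHalfPlane Complex
open scoped MatrixGroups

noncomputable section

namespace Fermat.Agent.GK.AL

open Fermat.Agent.S24 Fermat.Agent.S28 Fermat.Agent.S28.CuspExp Fermat.Agent.GJ.MerGL
open Fermat.Agent.S24_helper62 Fermat.Agent.S24_helper82 ModularCurve

/-- `q` exactly divides `N` -/
structure ExactDvd (q N : ℕ) : Prop where
  prime : q.Prime
  dvd : q ∣ N
  not_sq : ¬ q ^ 2 ∣ N

namespace ExactDvd

variable {q N : ℕ} (h : ExactDvd q N)

include h

theorem pos : 0 < q := h.prime.pos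

theorem mul_div : q * (N / q) = N := Nat.mul_div_cancel' h.dvd

theorem not_dvd_div : ¬ q ∣ N / q := by
  intro h1
  apply h.not_sq
  rw [pow_two, ← h.mul_div]
  exact Nat.mul_dvd_mul_left q h1

theorem coprime : Nat.Coprime q (N / q) :=
  (Nat.Prime.coprime_iff_not_dvd h.prime).mpr h.not_dvd_div

/-- a divisor of `N` prime to `q` divides `N / q` -/
theorem dvd_div_of_not_dvd {d : ℕ} (hd : d ∣ N) (hqd : ¬ q ∣ d) : d ∣ N / q := by
  have h1 : d ∣ q * (N / q) := by rw [h.mul_div]; exact hd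
  have h2 : Nat.Coprime d q := ((Nat.Prime.coprime_iff_not_dvd h.prime).mpr hqd).symm
  exact h2.dvd_of_dvd_mul_left h1

theorem mul_dvd_of_not_dvd {d : ℕ} (hd : d ∣ N) (hqd : ¬ q ∣ d) : q * d ∣ N := by
  have := Nat.mul_dvd_mul_left q (h.dvd_div_of_not_dvd hd hqd)
  rwa [h.mul_div] at this

theorem not_dvd_div_of_dvd {d : ℕ} (hd : d ∣ N) (hqd : q ∣ d) : ¬ q ∣ d / q := by
  intro h1
  apply h.not_sq
  have : q ^ 2 ∣ d := by
    rw [pow_two]
    have := Nat.mul_dvd_mul_left q h1
    rwa [Nat.mul_div_cancel' hqd] at this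
  exact this.trans hd

end ExactDvd

variable {q N : ℕ}

/-! ### The swap of the index set -/

open Classical in
/-- the swap `d ↦ q d` (`q ∤ d`), `d ↦ d / q` (`q ∣ d`) on the divisors of `N` -/
def swapFun (h : ExactDvd q N) (d : DivIdx N) : DivIdx N :=
  if hqd : q ∣ d.1 then ⟨d.1 / q, (Nat.div_dvd_of_dvd hqd).trans d.2⟩
  else ⟨q * d.1, h.mul_dvd_of_not_dvd d.2 hqd⟩

theorem swapFun_of_dvd (h : ExactDvd q N) {d : DivIdx N} (hqd : q ∣ d.1) :
    (swapFun h d).1 = d.1 / q := by
  unfold swapFun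
  rw [dif_pos hqd]

theorem swapFun_of_not_dvd (h : ExactDvd q N) {d : DivIdx N} (hqd : ¬ q ∣ d.1) :
    (swapFun h d).1 = q * d.1 := by
  unfold swapFun
  rw [dif_neg hqd]

theorem swapFun_swapFun (h : ExactDvd q N) (d : DivIdx N) : swapFun h (swapFun h d) = d := by
  apply Subtype.ext
  by_cases hqd : q ∣ d.1
  · have h1 := swapFun_of_dvd h hqd
    have h2 : ¬ q ∣ (swapFun h d).1 := by
      rw [h1]; exact h.not_dvd_div_of_dvd d.2 hqd
    rw [swapFun_of_not_dvd h h2, h1, Nat.mul_div_cancel' hqd]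
  · have h1 := swapFun_of_not_dvd h hqd
    have h2 : q ∣ (swapFun h d).1 := by rw [h1]; exact dvd_mul_right q _
    rw [swapFun_of_dvd h h2, h1, Nat.mul_div_cancel_left _ h.pos]

/-- the swap as a permutation of the divisors of `N` -/
def swapIdx (h : ExactDvd q N) : DivIdx N ≃ DivIdx N where
  toFun := swapFun h
  invFun := swapFun h
  left_inv := swapFun_swapFun h
  right_inv := swapFun_swapFun h

@[simp] theorem swapIdx_apply (h : ExactDvd q N) (d : DivIdx N) : swapIdx h d = swapFun h d := rfl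

theorem swapIdx_swapIdx (h : ExactDvd q N) (d : DivIdx N) : swapIdx h (swapIdx h d) = d :=
  swapFun_swapFun h d

/-! ### The function identity on `ℍ` -/

section Fn

variable [NeZero N] (h : ExactDvd q N) (D : WData q (N / q))

omit [NeZero N] in
theorem jDil_congr {d d' : ℕ} (hdd : d = d') (hd : 0 < d) (hd' : 0 < d') (τ : ℍ) :
    jDil d hd τ = jDil d' hd' τ := by
  subst hdd; rfl

/-- **`j(swap(d) τ) = j(d · W τ)`** -/
theorem genFn_swap (d : DivIdx N) (τ : ℍ) :
    genFn N (swapIdx h d) τ = genFn N d (wP h.pos D • τ) := by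
  rcases d with ⟨d, hd⟩
  have hdpos : 0 < d := Nat.pos_of_ne_zero (fun h0 => by
    subst h0; exact NeZero.ne N (Nat.eq_zero_of_zero_dvd hd))
  by_cases hqd : q ∣ d
  · obtain ⟨d0, rfl⟩ := hqd
    have hd0pos : 0 < d0 := Nat.pos_of_ne_zero (fun h0 => by subst h0; simp at hdpos)
    have hd0 : d0 ∣ N / q := by
      have : q * d0 ∣ q * (N / q) := by rw [h.mul_div]; exact hd
      exact (Nat.mul_dvd_mul_iff_left h.pos).mp this
    have h1 : (swapIdx h ⟨q * d0, hd⟩).1 = d0 := by
      rw [swapIdx_apply, swapFun_of_dvd h (dvd_mul_right q d0)]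
      exact Nat.mul_div_cancel_left _ h.pos
    have h2 := jDil_mul_wP_smul h.pos D hd0pos hd0 τ
    show jDil (swapIdx h ⟨q * d0, hd⟩).1 _ τ = jDil (q * d0) _ (wP h.pos D • τ)
    rw [h2]
    exact jDil_congr h1 _ _ τ
  · have hd0 : d ∣ N / q := h.dvd_div_of_not_dvd hd hqd
    have h1 : (swapIdx h ⟨d, hd⟩).1 = q * d := by
      rw [swapIdx_apply, swapFun_of_not_dvd h hqd]
    have h2 := jDil_wP_smul h.pos D hdpos hd0 τ
    show jDil (swapIdx h ⟨d, hd⟩).1 _ τ = jDil d _ (wP h.pos D • τ)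
    rw [h2]
    exact jDil_congr h1 _ _ τ

theorem polyFn_rename_swap (P : MvPolynomial (DivIdx N) ℂ) (τ : ℍ) :
    polyFn N (MvPolynomial.rename (swapIdx h) P) τ = polyFn N P (wP h.pos D • τ) := by
  show MvPolynomial.eval (fun d => genFn N d τ) (MvPolynomial.rename (swapIdx h) P) =
    MvPolynomial.eval (fun d => genFn N d (wP h.pos D • τ)) P
  rw [MvPolynomial.eval_rename]
  have hfun : ((fun d => genFn N d τ) ∘ ⇑(swapIdx h)) =
      fun d => genFn N d (wP h.pos D • τ) := by
    funext d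
    exact genFn_swap h D d τ
  rw [hfun]

end Fn

/-! ### The automorphism -/

section Aut

variable [NeZero N] (h : ExactDvd q N)

/-- the generators `j(q^d)`, `d ∣ N`, as elements of `F_N` -/
def gen (N : ℕ) [NeZero N] (d : DivIdx N) : FN N :=
  ⟨jFam Kbar N d, by
    rw [modularFunctionFieldBar_eq]; exact jFam_mem_full Kbar N d⟩

@[simp] theorem coe_gen (d : DivIdx N) : ((gen N d : FN N) : LaurentSeries Kbar) = jFam Kbar N d :=
  rfl

theorem gen_eq_jdF (d : DivIdx N) : gen N d = jdF N d.1 d.2 :=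
  Subtype.ext (jdSeries_eq_jFam N d).symm

/-- relations among the generators are stable under the swap -/
theorem aeval_rename_swap_eq_zero (P : MvPolynomial (DivIdx N) Kbar)
    (hP : MvPolynomial.aeval (jFam Kbar N) P = 0) :
    MvPolynomial.aeval (jFam Kbar N) (MvPolynomial.rename (swapIdx h) P) = 0 := by
  obtain ⟨D⟩ := exists_wData h.coprime
  rw [aeval_jFam_eq_zero_iff_polyFn] at hP ⊢
  rw [MvPolynomial.map_rename]
  funext τ
  rw [polyFn_rename_swap h D, hP]
  rfl

theorem coe_aeval_FN (s : DivIdx N → FN N) (P : MvPolynomial (DivIdx N) Kbar) :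
    ((MvPolynomial.aeval s P : FN N) : LaurentSeries Kbar) =
      MvPolynomial.aeval (fun d => ((s d : FN N) : LaurentSeries Kbar)) P := by
  have := MvPolynomial.comp_aeval_apply (f := s) (modularFunctionFieldBar N).val P
  exact this

theorem hker_swap (P : MvPolynomial (DivIdx N) Kbar) :
    MvPolynomial.aeval (jFam Kbar N) P = 0 ↔
      MvPolynomial.aeval (fun d => gen N (swapIdx h d)) P = 0 := by
  have key : ((MvPolynomial.aeval (fun d => gen N (swapIdx h d)) P : FN N) : LaurentSeries Kbar) =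
      MvPolynomial.aeval (jFam Kbar N) (MvPolynomial.rename (swapIdx h) P) := by
    rw [coe_aeval_FN, MvPolynomial.aeval_rename]
    rfl
  constructor
  · intro hP
    apply Subtype.ext
    rw [key, aeval_rename_swap_eq_zero h P hP]
    rfl
  · intro hP
    have h1 : MvPolynomial.aeval (jFam Kbar N) (MvPolynomial.rename (swapIdx h) P) = 0 := by
      rw [← key, hP]; rfl
    have h2 := aeval_rename_swap_eq_zero h _ h1
    rw [MvPolynomial.rename_rename] at h2
    have h3 : (swapIdx h : DivIdx N → DivIdx N) ∘ (swapIdx h) = id := by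
      funext d; exact swapIdx_swapIdx h d
    rwa [h3, MvPolynomial.rename_id_apply] at h2

/-- the Atkin–Lehner endomorphism on `ℚ̄(j(q^d))` -/
def wAdjoin : IntermediateField.adjoin Kbar (Set.range (jFam Kbar N)) →ₐ[Kbar] FN N :=
  (exists_algHom_adjoin_field_two (jFam Kbar N) (fun d => gen N (swapIdx h d))
    (hker_swap h)).choose

theorem wAdjoin_gen (d : DivIdx N) :
    wAdjoin h ⟨jFam Kbar N d, IntermediateField.subset_adjoin Kbar _ ⟨d, rfl⟩⟩ =
      gen N (swapIdx h d) :=
  (exists_algHom_adjoin_field_two (jFam Kbar N) (fun d => gen N (swapIdx h d))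
    (hker_swap h)).choose_spec d

/-- the Atkin–Lehner endomorphism of `F_N` -/
def wHom : FN N →ₐ[Kbar] FN N :=
  (wAdjoin h).comp (IntermediateField.equivOfEq (FN_eq_adjoin N)).toAlgHom

theorem wHom_gen (d : DivIdx N) : wHom h (gen N d) = gen N (swapIdx h d) := by
  have h2 : (IntermediateField.equivOfEq (FN_eq_adjoin N)) (gen N d) =
      ⟨jFam Kbar N d, IntermediateField.subset_adjoin Kbar _ ⟨d, rfl⟩⟩ := Subtype.ext rfl
  show wAdjoin h ((IntermediateField.equivOfEq (FN_eq_adjoin N)) (gen N d)) = _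
  rw [h2, wAdjoin_gen]

/-- `Kbar`-algebra homomorphisms out of `F_N` agree as soon as they agree on the `gen d` -/
theorem algHom_ext_gen {L : Type*} [Field L] [Algebra Kbar L] {φ ψ : FN N →ₐ[Kbar] L}
    (hφψ : ∀ d : DivIdx N, φ (gen N d) = ψ (gen N d)) : φ = ψ := by
  apply algHom_ext_FN
  intro d _ hd
  have := hφψ ⟨d, hd⟩
  rwa [gen_eq_jdF] at this

theorem wHom_wHom (f : FN N) : wHom h (wHom h f) = f := by
  have : (wHom h).comp (wHom h) = AlgHom.id Kbar (FN N) := by
    apply algHom_ext_gen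
    intro d
    show wHom h (wHom h (gen N d)) = gen N d
    rw [wHom_gen, wHom_gen, swapIdx_swapIdx]
  exact DFunLike.congr_fun this f

/-- **the Atkin–Lehner automorphism `W_q` of `F_N`** -/
def wAut : FN N ≃ₐ[Kbar] FN N :=
  AlgEquiv.ofAlgHom (wHom h) (wHom h)
    (AlgHom.ext fun f => wHom_wHom h f) (AlgHom.ext fun f => wHom_wHom h f)

@[simp] theorem wAut_gen (d : DivIdx N) : wAut h (gen N d) = gen N (swapIdx h d) := wHom_gen h d

theorem wAut_wAut (f : FN N) : wAut h (wAut h f) = f := wHom_wHom h f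

theorem wAut_symm : (wAut h).symm = wAut h := by
  refine AlgEquiv.ext fun f => ?_
  rw [AlgEquiv.symm_apply_eq, wAut_wAut]

end Aut

end Fermat.Agent.GK.AL
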