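/-
GATE-K / K1(a) (helper42): the Atkin–Lehner automorphism `wAut` of `F_N` commutes with the
coefficientwise action of `G_ℚ = Gal(ℚ̄/ℚ)` (it is defined over `ℚ`).
-/
import Mathlib
import Fermat.Agent.GK.AL.WAut
import Fermat.Prelude.Def_ModularCurve_ArithmeticGalois
import Fermat.Prelude.Thm_ModularCurve_coeffMap_qExpand

set_option autoImplicit false

noncomputable section

namespace Fermat.Agent.GK.AL

open Fermat.Agent.S24 Fermat.Agent.S24_helper62 Fermat.Agent.S24_helper82 ModularCurve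

variable {q N : ℕ} [NeZero N]

/-- the coefficientwise Galois action on `F_N` -/
abbrev galF (N : ℕ) [NeZero N] (σ : Kbar ≃ₐ[ℚ] Kbar) : FN N ≃+* FN N :=
  arithmeticRingAut (modularFunctionFieldFull N) σ

/-- the generators have rational coefficients -/
theorem galF_gen (σ : Kbar ≃ₐ[ℚ] Kbar) (d : DivIdx N) : galF N σ (gen N d) = gen N d := by
  apply Subtype.ext
  show coeffMap (σ : Kbar →+* Kbar) (jFam Kbar N d) = jFam Kbar N d
  rw [jFam, coeffMap_qExpand, coeffMap_jqModC]

theorem galF_algebraMap (σ : Kbar ≃ₐ[ℚ] Kbar) (c : Kbar) :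
    galF N σ (algebraMap Kbar (FN N) c) = algebraMap Kbar (FN N) (σ c) :=
  arithmeticRingAut_algebraMap (modularFunctionFieldFull N) σ c

theorem galF_symm_algebraMap (σ : Kbar ≃ₐ[ℚ] Kbar) (c : Kbar) :
    (galF N σ).symm (algebraMap Kbar (FN N) c) = algebraMap Kbar (FN N) (σ.symm c) := by
  rw [RingEquiv.symm_apply_eq, galF_algebraMap, AlgEquiv.apply_symm_apply]

variable (h : ExactDvd q N)

/-- the `σ`-twist of `wAut` as a `ℚ̄`-algebra homomorphism -/
def wTwist (σ : Kbar ≃ₐ[ℚ] Kbar) : FN N →ₐ[Kbar] FN N where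
  toFun f := (galF N σ).symm (wAut h (galF N σ f))
  map_one' := by simp
  map_mul' a b := by simp
  map_zero' := by simp
  map_add' a b := by simp
  commutes' c := by
    show (galF N σ).symm (wAut h (galF N σ (algebraMap Kbar (FN N) c))) = _
    rw [galF_algebraMap, AlgEquiv.commutes, galF_symm_algebraMap, AlgEquiv.symm_apply_apply]

theorem wTwist_apply (σ : Kbar ≃ₐ[ℚ] Kbar) (f : FN N) :
    wTwist h σ f = (galF N σ).symm (wAut h (galF N σ f)) := rfl

theorem wTwist_eq (σ : Kbar ≃ₐ[ℚ] Kbar) : wTwist h σ = (wAut h).toAlgHom := by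
  apply algHom_ext_gen
  intro d
  show (galF N σ).symm (wAut h (galF N σ (gen N d))) = wAut h (gen N d)
  rw [galF_gen, wAut_gen, RingEquiv.symm_apply_eq, galF_gen]

/-- **`W_q` is defined over `ℚ`**: it commutes with the coefficientwise Galois action. -/
theorem wAut_galF (σ : Kbar ≃ₐ[ℚ] Kbar) (f : FN N) :
    wAut h (galF N σ f) = galF N σ (wAut h f) := by
  have h1 := DFunLike.congr_fun (wTwist_eq h σ) f
  rw [wTwist_apply] at h1
  rw [RingEquiv.symm_apply_eq] at h1
  exact h1

/-- the same statement, spelled with the prelude's `arithmeticRingAut` -/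
theorem wAut_arithmeticRingAut (σ : Kbar ≃ₐ[ℚ] Kbar) (f : FN N) :
    wAut h (arithmeticRingAut (modularFunctionFieldFull N) σ f) =
      arithmeticRingAut (modularFunctionFieldFull N) σ (wAut h f) :=
  wAut_galF h σ f

end Fermat.Agent.GK.AL
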