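/-
GATE-K / K1(b) (helper42): the SECOND Gauss valuation of `F_N = ℚ̄(X₀(N))` at a prime `q ∥ N`.

`A` a valuation subring of `ℚ̄`, `R₁ := redDataBar N A` the Gauss valuation `w₁` at the cusp `∞`
(helper45, `GJ/J1/Val/GaussRedData.lean`; exists for every `N`).  The second valuation is the
transport of `w₁` along the Atkin–Lehner automorphism `W_q = wAut h`:

  `redData2 N A h : RedData ℚ̄ F_N k (FresBar N A)`,  `Rw₂ = Rw₁.comap W_q`,  `red₂ = red₁ ∘ W_q`.

* generic: `RedData.comapAlgEquiv` (transport of a reduction datum along a `K`-automorphism);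
* `gen_mem_Rw1/2`, `coe_red1_gen`, `coe_red2_gen` : `red₁ j(q^d) = j~(Q^d)`, `red₂ j(q^d) = j~(Q^{swap d})`;
* `isGaussChart_jF_1/2` : `j` is a Gauss chart for BOTH (`red₁ j = j~`, `red₂ j = j~(Q^q)`), so both
  restrict to the Gauss valuation of `ℚ̄(j)`;
* `not_Rw1_le_Rw2`, `not_Rw2_le_Rw1`, `Rw1_ne_Rw2` for `A` over `q` (witness `j(q^q) - j^q`);
* Galois: the decomposition group of `A` preserves `Rw₁` and `Rw₂`, `red_i (σ f) = σ~ (red_i f)`
  coefficientwise, and inertia acts trivially on both residue fields.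
-/
import Mathlib
import Fermat.Agent.GK.AL.WGal
import Fermat.Agent.GJ.J1.Val.GaussRedData
import Fermat.Agent.GJ.Kum.ESKummer
import Fermat.Agent.GJ.J3.QSeries

set_option autoImplicit false

noncomputable section

namespace Fermat.Agent.GK.AL

open HahnSeries ModularCurve IsLocalRing
open Fermat.Agent.S24 Fermat.Agent.S24_helper62 Fermat.Agent.S24_helper82
open Fermat.Agent.GJ.J1 Fermat.Agent.GJ.J1.Val Fermat.Agent.GJ.Kum

/-! ### Transport of a reduction datum along an automorphism -/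

section Generic

variable {K F k Ft : Type*} [Field K] [Field F] [Algebra K F] [Field k] [Field Ft] [Algebra k Ft]

/-- the ring isomorphism `Rw.comap e ≃+* Rw` induced by a ring automorphism `e` -/
def comapRingEquiv (Rw : ValuationSubring F) (e : F ≃+* F) :
    (Rw.comap (e : F →+* F)) ≃+* Rw where
  toFun x := ⟨e x, x.2⟩
  invFun y := ⟨e.symm y, by
    show e (e.symm y) ∈ Rw
    rw [e.apply_symm_apply]; exact y.2⟩
  left_inv x := Subtype.ext (e.symm_apply_apply x)
  right_inv y := Subtype.ext (e.apply_symm_apply y)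
  map_mul' x y := Subtype.ext (map_mul e (x : F) (y : F))
  map_add' x y := Subtype.ext (map_add e (x : F) (y : F))

@[simp] theorem coe_comapRingEquiv (Rw : ValuationSubring F) (e : F ≃+* F)
    (x : Rw.comap (e : F →+* F)) : ((comapRingEquiv Rw e x : Rw) : F) = e x := rfl

theorem mem_maximalIdeal_comap_iff (Rw : ValuationSubring F) (e : F ≃+* F)
    (x : Rw.comap (e : F →+* F)) :
    x ∈ maximalIdeal (Rw.comap (e : F →+* F)) ↔ comapRingEquiv Rw e x ∈ maximalIdeal Rw := by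
  rw [mem_maximalIdeal, mem_maximalIdeal, mem_nonunits_iff, mem_nonunits_iff,
    isUnit_map_iff (comapRingEquiv Rw e)]

/-- **transport of a reduction datum** along a `K`-automorphism `e` of `F`:
`Rw' = e⁻¹(Rw)`, `red' = red ∘ e`. -/
def _root_.Fermat.Agent.GJ.J1.RedData.comapAlgEquiv (R : RedData K F k Ft) (e : F ≃ₐ[K] F) :
    RedData K F k Ft where
  Rw := R.Rw.comap ((e : F ≃+* F) : F →+* F)
  A := R.A
  mem_A_iff a := by
    rw [R.mem_A_iff, ValuationSubring.mem_comap]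
    show _ ↔ e (algebraMap K F a) ∈ R.Rw
    rw [e.commutes]
  red := R.red.comp (comapRingEquiv R.Rw (e : F ≃+* F) : _ →+* R.Rw)
  red_surjective := by
    intro y
    obtain ⟨x, rfl⟩ := R.red_surjective y
    refine ⟨(comapRingEquiv R.Rw (e : F ≃+* F)).symm x, ?_⟩
    show R.red (comapRingEquiv R.Rw (e : F ≃+* F) ((comapRingEquiv R.Rw (e : F ≃+* F)).symm x)) = _
    rw [RingEquiv.apply_symm_apply]
  red_eq_zero_iff x := by
    rw [mem_maximalIdeal_comap_iff, ← R.red_eq_zero_iff]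
    rfl
  res := R.res
  res_surjective := R.res_surjective
  red_algebraMap a := by
    rw [← R.red_algebraMap a]
    show R.red _ = R.red _
    congr 1
    exact Subtype.ext (e.commutes (a : K))

theorem mem_comapAlgEquiv_Rw (R : RedData K F k Ft) (e : F ≃ₐ[K] F) (x : F) :
    x ∈ (R.comapAlgEquiv e).Rw ↔ e x ∈ R.Rw := Iff.rfl

theorem comapAlgEquiv_red (R : RedData K F k Ft) (e : F ≃ₐ[K] F) (x : F)
    (hx : x ∈ (R.comapAlgEquiv e).Rw) :
    (R.comapAlgEquiv e).red ⟨x, hx⟩ = R.red ⟨e x, hx⟩ := rfl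

@[simp] theorem comapAlgEquiv_A (R : RedData K F k Ft) (e : F ≃ₐ[K] F) :
    (R.comapAlgEquiv e).A = R.A := rfl

@[simp] theorem comapAlgEquiv_res (R : RedData K F k Ft) (e : F ≃ₐ[K] F) :
    (R.comapAlgEquiv e).res = R.res := rfl

/-- nonunits of the transported valuation ring -/
theorem mem_nonunits_comapAlgEquiv (R : RedData K F k Ft) (e : F ≃ₐ[K] F) (x : F) :
    x ∈ (R.comapAlgEquiv e).Rw.nonunits ↔ e x ∈ R.Rw.nonunits := by
  rw [ValuationSubring.mem_nonunits_iff_exists_mem_maximalIdeal,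
    ValuationSubring.mem_nonunits_iff_exists_mem_maximalIdeal]
  constructor
  · rintro ⟨hx, hm⟩
    exact ⟨hx, (mem_maximalIdeal_comap_iff R.Rw (e : F ≃+* F) ⟨x, hx⟩).mp hm⟩
  · rintro ⟨hx, hm⟩
    exact ⟨hx, (mem_maximalIdeal_comap_iff R.Rw (e : F ≃+* F) ⟨x, hx⟩).mpr hm⟩

/-- nonunits of a reduction datum are the elements reducing to `0` -/
theorem RedData_mem_nonunits_iff (R : RedData K F k Ft) (x : F) :
    x ∈ R.Rw.nonunits ↔ ∃ hx : x ∈ R.Rw, R.red ⟨x, hx⟩ = 0 := by
  rw [ValuationSubring.mem_nonunits_iff_exists_mem_maximalIdeal]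
  constructor
  · rintro ⟨hx, hm⟩
    exact ⟨hx, (R.red_eq_zero_iff _).mpr hm⟩
  · rintro ⟨hx, hm⟩
    exact ⟨hx, (R.red_eq_zero_iff _).mp hm⟩

end Generic

/-! ### The two Gauss valuations of `F_N` -/

section Two

variable {q : ℕ} (N : ℕ) [NeZero N] (A : ValuationSubring Kbar) (h : ExactDvd q N)

local notation "𝕜" => ResidueField A

/-- **the second Gauss valuation** `w₂ = w₁ ∘ W_q` of `F_N` -/
def redData2 : RedData Kbar (FN N) 𝕜 (FresBar N A) :=
  (redDataBar N A).comapAlgEquiv (wAut h)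

theorem mem_Rw2_iff (f : FN N) :
    f ∈ (redData2 N A h).Rw ↔ wAut h f ∈ (redDataBar N A).Rw := Iff.rfl

theorem red2_eq (f : FN N) (hf : f ∈ (redData2 N A h).Rw) :
    (redData2 N A h).red ⟨f, hf⟩ = (redDataBar N A).red ⟨wAut h f, hf⟩ := rfl

@[simp] theorem redData2_A : (redData2 N A h).A = A := rfl

theorem wAut_mem_Rw2_iff (f : FN N) :
    wAut h f ∈ (redData2 N A h).Rw ↔ f ∈ (redDataBar N A).Rw := by
  rw [mem_Rw2_iff, wAut_wAut]

theorem mem_nonunits_Rw2_iff (f : FN N) :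
    f ∈ (redData2 N A h).Rw.nonunits ↔ wAut h f ∈ (redDataBar N A).Rw.nonunits :=
  mem_nonunits_comapAlgEquiv _ _ f

/-! #### the generators -/

theorem gen_eq_emb (d : DivIdx N) :
    (gen N d : FN N) = ⟨emb A (qExpand A d.1 (jqModC A)), emb_gen_mem N A d.2⟩ := by
  apply Subtype.ext
  show jFam Kbar N d = emb A (qExpand A d.1 (jqModC A))
  rw [emb, coeffMap_qExpand, coeffMap_jqModC, jFam]

theorem gen_mem_Rw1 (d : DivIdx N) : gen N d ∈ (redDataBar N A).Rw := by
  rw [gen_eq_emb N A d]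
  exact int_mem_Rw (hGF := hasGaussFrac_bar N A) _

/-- `red₁ (j(q^d)) = j~(Q^d)` (any membership proof) -/
theorem coe_red1_gen (d : DivIdx N) (hd : gen N d ∈ (redDataBar N A).Rw) :
    (((redDataBar N A).red ⟨gen N d, hd⟩ : FresBar N A) : LaurentSeries 𝕜) =
      qExpand 𝕜 d.1 (jqModC 𝕜) := by
  have h1 : (⟨gen N d, hd⟩ : (redDataBar N A).Rw) =
      ⟨⟨emb A (qExpand A d.1 (jqModC A)), emb_gen_mem N A d.2⟩,
        int_mem_Rw (hGF := hasGaussFrac_bar N A) (emb_gen_mem N A d.2)⟩ :=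
    Subtype.ext (gen_eq_emb N A d)
  rw [h1]
  refine (redL_int (hGF := hasGaussFrac_bar N A) _).trans ?_
  rw [rd, coeffMap_qExpand, coeffMap_jqModC]

theorem gen_mem_Rw2 (d : DivIdx N) : gen N d ∈ (redData2 N A h).Rw := by
  rw [mem_Rw2_iff, wAut_gen]
  exact gen_mem_Rw1 N A _

/-- `red₂ (j(q^d)) = j~(Q^{swap d})` (any membership proof) -/
theorem coe_red2_gen (d : DivIdx N) (hd : gen N d ∈ (redData2 N A h).Rw) :
    (((redData2 N A h).red ⟨gen N d, hd⟩ : FresBar N A) : LaurentSeries 𝕜) =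
      qExpand 𝕜 (swapIdx h d).1 (jqModC 𝕜) := by
  rw [red2_eq]
  have h1 : (⟨wAut h (gen N d), hd⟩ : (redDataBar N A).Rw) =
      ⟨gen N (swapIdx h d), gen_mem_Rw1 N A _⟩ := Subtype.ext (wAut_gen h d)
  rw [h1, coe_red1_gen]

/-! #### `j` is a Gauss chart for both valuations -/

/-- `j(Q^d)` is transcendental over any field of constants -/
theorem transcendental_qExpand_jqModC (κ : Type*) [Field κ] (d : ℕ) [NeZero d] :
    Transcendental κ (qExpand κ d (jqModC κ)) := by
  apply transcendental_of_order_neg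
  have hd : 0 < d := Nat.pos_of_ne_zero (NeZero.ne d)
  apply order_neg_of_coeff_ne_zero (n := (d : ℤ) * (-1))
  · have : (0 : ℤ) < d := by exact_mod_cast hd
    linarith
  · rw [qExpand_coeff_mul, ModularCurve.coeff_jqModC_neg_one]
    exact one_ne_zero

/-- the index `1` -/
def idxOne : DivIdx N := ⟨1, one_dvd N⟩

theorem jF_eq_gen : jF N = gen N (idxOne N) := (gen_eq_jdF (idxOne N)).symm

theorem isGaussChart_jF_1 : (redDataBar N A).IsGaussChart (jF N) := by
  rw [jF_eq_gen]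
  refine ⟨gen_mem_Rw1 N A _, ?_⟩
  apply Fres.transcendental_of_coe
  rw [coe_red1_gen]
  exact transcendental_qExpand_jqModC 𝕜 _

theorem isGaussChart_jF_2 : (redData2 N A h).IsGaussChart (jF N) := by
  rw [jF_eq_gen]
  refine ⟨gen_mem_Rw2 N A h _, ?_⟩
  apply Fres.transcendental_of_coe
  rw [coe_red2_gen]
  exact transcendental_qExpand_jqModC 𝕜 _

end Two

end Fermat.Agent.GK.AL
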