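/-
GATE-K / K1(b) (helper42): the two Gauss valuations `w₁`, `w₂ = w₁ ∘ W_q` of `F_N` at a valuation
subring `A` of `ℚ̄` OVER `q` (`q ∥ N`) are DIFFERENT, indeed incomparable.

Witness: `zAL = j(q^q) - j^q`.  `red₁ zAL = j~(Q^q) - j~^q = 0` (characteristic `q`), while
`red₂ zAL = red₁ (j - j(q^q)^q) = j~ - j~(Q^q)^q ≠ 0` (coefficient of `Q^{-1}`).
-/
import Mathlib
import Fermat.Agent.GK.AL.SecondVal

set_option autoImplicit false

noncomputable section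

namespace Fermat.Agent.GK.AL

open HahnSeries ModularCurve IsLocalRing
open Fermat.Agent.S24 Fermat.Agent.S24_helper62 Fermat.Agent.S24_helper82
open Fermat.Agent.GJ.J1 Fermat.Agent.GJ.J1.Val Fermat.Agent.GJ.Kum

section Ne

variable {q : ℕ} (N : ℕ) [NeZero N] (A : ValuationSubring Kbar) (h : ExactDvd q N)

local notation "𝕜" => ResidueField A

/-- `red₁ (j(q^d)) = j~(Q^n)` for `n = d` -/
theorem coe_red1_gen_of_val (d : DivIdx N) (n : ℕ) [NeZero n] (hn : d.1 = n)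
    (hd : gen N d ∈ (redDataBar N A).Rw) :
    (((redDataBar N A).red ⟨gen N d, hd⟩ : FresBar N A) : LaurentSeries 𝕜) =
      qExpand 𝕜 n (jqModC 𝕜) := by
  subst hn
  exact coe_red1_gen N A d hd

/-- the index `q` -/
def idxQ : DivIdx N := ⟨q, h.dvd⟩

theorem swapIdx_idxOne_val : (swapIdx h (idxOne N)).1 = q := by
  have h1 : ¬ q ∣ (idxOne N).1 := by
    show ¬ q ∣ 1
    rw [Nat.dvd_one]
    exact h.prime.ne_one
  rw [swapIdx_apply, swapFun_of_not_dvd h h1]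
  show q * 1 = q
  rw [mul_one]

theorem swapIdx_idxQ_val : (swapIdx h (idxQ N h)).1 = 1 := by
  have h1 : q ∣ (idxQ N h).1 := dvd_refl q
  rw [swapIdx_apply, swapFun_of_dvd h h1]
  exact Nat.div_self h.pos

/-- the witness `j(q^q) - j^q` -/
def zAL : FN N := gen N (idxQ N h) - gen N (idxOne N) ^ q

theorem zAL_mem_Rw1 : zAL N h ∈ (redDataBar N A).Rw :=
  sub_mem (gen_mem_Rw1 N A _) (pow_mem (gen_mem_Rw1 N A _) q)

theorem wAut_zAL :
    wAut h (zAL N h) = gen N (swapIdx h (idxQ N h)) - gen N (swapIdx h (idxOne N)) ^ q := by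
  rw [zAL, map_sub, map_pow, wAut_gen, wAut_gen]

theorem zAL_mem_Rw2 : zAL N h ∈ (redData2 N A h).Rw := by
  rw [mem_Rw2_iff, wAut_zAL]
  exact sub_mem (gen_mem_Rw1 N A _) (pow_mem (gen_mem_Rw1 N A _) q)

/-- the coefficient of `Q^{-1}` in a `q`-th power vanishes in characteristic `q` -/
theorem coeff_neg_one_pow_char (κ : Type*) [Field κ] (ℓ : ℕ) [Fact ℓ.Prime] [NeZero ℓ]
    [CharP κ ℓ] (X : LaurentSeries κ) : (X ^ ℓ).coeff (-1) = 0 := by
  rw [Fermat.Agent.GJ.J3.QS.pow_char_eq_qExpand ℓ X]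
  apply qExpand_coeff_of_not_dvd
  intro hdvd
  have h1 : (ℓ : ℤ) ∣ 1 := (dvd_neg.mp hdvd)
  have h2 : ℓ ∣ 1 := by exact_mod_cast h1
  exact (Fact.out : ℓ.Prime).ne_one (Nat.dvd_one.mp h2)

theorem coe_sub_pow_Fres (a b : FresBar N A) (n : ℕ) :
    ((a - b ^ n : FresBar N A) : LaurentSeries 𝕜) =
      (a : LaurentSeries 𝕜) - (b : LaurentSeries 𝕜) ^ n := rfl

variable (hA : A.LiesOverPrime q)

include hA

/-- `red₁ (j(q^q) - j^q) = 0` -/
theorem red1_zAL : (redDataBar N A).red ⟨zAL N h, zAL_mem_Rw1 N A h⟩ = 0 := by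
  have : Fact q.Prime := ⟨h.prime⟩
  have : NeZero q := ⟨h.prime.ne_zero⟩
  have : CharP 𝕜 q := charP_residueField A h.prime hA
  have h1 : (⟨zAL N h, zAL_mem_Rw1 N A h⟩ : (redDataBar N A).Rw) =
      ⟨gen N (idxQ N h), gen_mem_Rw1 N A _⟩ - ⟨gen N (idxOne N), gen_mem_Rw1 N A _⟩ ^ q :=
    Subtype.ext rfl
  rw [h1, map_sub, map_pow]
  apply Subtype.ext
  rw [coe_sub_pow_Fres,
    coe_red1_gen_of_val N A (idxQ N h) q rfl, coe_red1_gen_of_val N A (idxOne N) 1 rfl,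
    qExpand_one_apply, Fermat.Agent.GJ.J3.QS.qExpand_jqModC_char]
  exact sub_self _

/-- `red₂ (j(q^q) - j^q) ≠ 0` -/
theorem red2_zAL_ne_zero : (redData2 N A h).red ⟨zAL N h, zAL_mem_Rw2 N A h⟩ ≠ 0 := by
  have : Fact q.Prime := ⟨h.prime⟩
  have : NeZero q := ⟨h.prime.ne_zero⟩
  have : CharP 𝕜 q := charP_residueField A h.prime hA
  intro h0
  rw [red2_eq] at h0
  have h1 : (⟨wAut h (zAL N h), zAL_mem_Rw2 N A h⟩ : (redDataBar N A).Rw) =
      ⟨gen N (swapIdx h (idxQ N h)), gen_mem_Rw1 N A _⟩ -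
        ⟨gen N (swapIdx h (idxOne N)), gen_mem_Rw1 N A _⟩ ^ q :=
    Subtype.ext (wAut_zAL N h)
  rw [h1, map_sub, map_pow] at h0
  have h2 : (((redDataBar N A).red ⟨gen N (swapIdx h (idxQ N h)), gen_mem_Rw1 N A _⟩ -
      (redDataBar N A).red ⟨gen N (swapIdx h (idxOne N)), gen_mem_Rw1 N A _⟩ ^ q : FresBar N A) :
        LaurentSeries 𝕜) = 0 := by
    rw [h0]; rfl
  rw [coe_sub_pow_Fres,
    coe_red1_gen_of_val N A (swapIdx h (idxQ N h)) 1 (swapIdx_idxQ_val N h),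
    coe_red1_gen_of_val N A (swapIdx h (idxOne N)) q (swapIdx_idxOne_val N h),
    qExpand_one_apply] at h2
  have h3 : (jqModC 𝕜 - qExpand 𝕜 q (jqModC 𝕜) ^ q).coeff (-1) = 0 := by
    rw [h2]; rfl
  rw [HahnSeries.coeff_sub] at h3
  rw [ModularCurve.coeff_jqModC_neg_one, coeff_neg_one_pow_char 𝕜 q, sub_zero] at h3
  exact one_ne_zero h3

theorem zAL_mem_nonunits_Rw1 : zAL N h ∈ (redDataBar N A).Rw.nonunits :=
  (RedData_mem_nonunits_iff _ _).mpr ⟨zAL_mem_Rw1 N A h, red1_zAL N A h hA⟩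

theorem zAL_not_mem_nonunits_Rw2 : zAL N h ∉ (redData2 N A h).Rw.nonunits := by
  intro hz
  obtain ⟨hx, hred⟩ := (RedData_mem_nonunits_iff _ _).mp hz
  exact red2_zAL_ne_zero N A h hA hred

/-- **`w₂` is not coarser than `w₁`** -/
theorem not_Rw2_le_Rw1 : ¬ (redData2 N A h).Rw ≤ (redDataBar N A).Rw := by
  intro hle
  have h1 := ValuationSubring.nonunits_le_nonunits.mpr hle
  exact zAL_not_mem_nonunits_Rw2 N A h hA (h1 (zAL_mem_nonunits_Rw1 N A h hA))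

/-- **`w₁` is not coarser than `w₂`** -/
theorem not_Rw1_le_Rw2 : ¬ (redDataBar N A).Rw ≤ (redData2 N A h).Rw := by
  intro hle
  apply not_Rw2_le_Rw1 N A h hA
  intro f hf
  have h1 : wAut h f ∈ (redData2 N A h).Rw := hle ((mem_Rw2_iff N A h f).mp hf)
  have h2 := (mem_Rw2_iff N A h _).mp h1
  rwa [wAut_wAut] at h2

/-- **the two Gauss valuations over `q` are different** -/
theorem Rw1_ne_Rw2 : (redDataBar N A).Rw ≠ (redData2 N A h).Rw := fun heq =>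
  not_Rw1_le_Rw2 N A h hA (le_of_eq heq)

end Ne

end Fermat.Agent.GK.AL
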