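/-
GATE-K / K1(b) (helper42): Galois action on the two Gauss valuations `w₁`, `w₂ = w₁ ∘ W_q` of `F_N`.

For `σ` in the decomposition group of `A` (a valuation subring of `ℚ̄`), the coefficientwise action
`galF N σ` of `σ` on `F_N` preserves `Rw₁` and `Rw₂`, and

  `red_i (σ f) = σ~ (red_i f)`   (coefficientwise action of the induced automorphism of the residue field);

for `σ` in the inertia group: `red_i (σ f) = red_i f` — inertia acts trivially on both residue fields.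
Also the explicit values `wAut j = j(q^q)`, `wAut j(q^q) = j` and the four `IsRed` facts.
-/
import Mathlib
import Fermat.Agent.GK.AL.SecondValNe

set_option autoImplicit false

noncomputable section

namespace Fermat.Agent.GK.AL

open HahnSeries ModularCurve IsLocalRing
open Fermat.Agent.S24 Fermat.Agent.S24_helper62 Fermat.Agent.S24_helper82
open Fermat.Agent.GJ.J1 Fermat.Agent.GJ.J1.Val Fermat.Agent.GJ.Kum

section Gal

variable {q : ℕ} (N : ℕ) [NeZero N] (A : ValuationSubring Kbar) (h : ExactDvd q N)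

local notation "𝕜" => ResidueField A

/-- the automorphism of the residue field induced by an element of the decomposition group -/
def resk (σ : Kbar ≃ₐ[ℚ] Kbar) (hσd : σ ∈ A.decompositionSubgroup ℚ) : 𝕜 →+* 𝕜 :=
  MulSemiringAction.toRingHom (A.decompositionSubgroup ℚ) 𝕜 ⟨σ, hσd⟩

theorem residue_resA (σ : Kbar ≃ₐ[ℚ] Kbar) (hσd : σ ∈ A.decompositionSubgroup ℚ) (x : A) :
    residue A (resA A σ hσd x) = resk A σ hσd (residue A x) := by
  show _ = (⟨σ, hσd⟩ : A.decompositionSubgroup ℚ) • residue A x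
  rw [← IsLocalRing.ResidueField.residue_smul]
  rfl

theorem rd_coeffMap_resA (σ : Kbar ≃ₐ[ℚ] Kbar) (hσd : σ ∈ A.decompositionSubgroup ℚ)
    (y : LaurentSeries A) :
    rd A (coeffMap (resA A σ hσd) y) = coeffMap (resk A σ hσd) (rd A y) :=
  red_coeffMap (residue_resA A σ hσd) y

theorem coeffMap_resk_ne_zero (σ : Kbar ≃ₐ[ℚ] Kbar) (hσd : σ ∈ A.decompositionSubgroup ℚ)
    {y : LaurentSeries 𝕜} (hy : y ≠ 0) : coeffMap (resk A σ hσd) y ≠ 0 := by
  intro h0
  apply hy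
  ext n
  have h1 := congrArg (fun w : LaurentSeries 𝕜 => w.coeff n) h0
  simp only [coeffMap_coeff, HahnSeries.coeff_zero] at h1
  rw [HahnSeries.coeff_zero]
  exact (resk A σ hσd).injective (by rw [h1, map_zero])

variable {N A}

/-- transport of a Gauss fraction by the decomposition group -/
theorem isFrac_galF {σ : Kbar ≃ₐ[ℚ] Kbar} (hσd : σ ∈ A.decompositionSubgroup ℚ) {f : FN N}
    {a b : LaurentSeries A}
    (hf : IsFrac A (modularFunctionFieldBar N) ((f : FN N) : LaurentSeries Kbar) a b) :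
    IsFrac A (modularFunctionFieldBar N) ((galF N σ f : FN N) : LaurentSeries Kbar)
      (coeffMap (resA A σ hσd) a) (coeffMap (resA A σ hσd) b) := by
  obtain ⟨ha, hb, hb0, hfb⟩ := hf
  refine ⟨?_, ?_, ?_, ?_⟩
  · rw [emb, coeffMap_subtype_resA]
    exact coeffMap_mem_laurentBaseChange σ ha
  · rw [emb, coeffMap_subtype_resA]
    exact coeffMap_mem_laurentBaseChange σ hb
  · rw [rd_coeffMap_resA]
    exact coeffMap_resk_ne_zero A σ hσd hb0
  · have h1 := congrArg (coeffMap (σ : Kbar →+* Kbar)) hfb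
    rw [map_mul] at h1
    rw [emb, coeffMap_subtype_resA, coeffMap_subtype_resA]
    exact h1

/-- **the decomposition group preserves `Rw₁`** -/
theorem galF_mem_Rw1 {σ : Kbar ≃ₐ[ℚ] Kbar} (hσd : σ ∈ A.decompositionSubgroup ℚ) {f : FN N}
    (hf : f ∈ (redDataBar N A).Rw) : galF N σ f ∈ (redDataBar N A).Rw := by
  obtain ⟨a, b, hab⟩ := hf
  exact ⟨_, _, isFrac_galF hσd hab⟩

/-- **`red₁ (σ f) = σ~ (red₁ f)`** coefficientwise -/
theorem coe_red1_galF {σ : Kbar ≃ₐ[ℚ] Kbar} (hσd : σ ∈ A.decompositionSubgroup ℚ) {f : FN N}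
    (hf : f ∈ (redDataBar N A).Rw) (hf' : galF N σ f ∈ (redDataBar N A).Rw) :
    (((redDataBar N A).red ⟨galF N σ f, hf'⟩ : FresBar N A) : LaurentSeries 𝕜) =
      coeffMap (resk A σ hσd)
        (((redDataBar N A).red ⟨f, hf⟩ : FresBar N A) : LaurentSeries 𝕜) := by
  have hf0 := hf
  obtain ⟨a, b, hab⟩ := hf0
  have h1 : redL A (modularFunctionFieldBar N) (hasGaussFrac_bar N A) ⟨f, hf⟩ = rd A a / rd A b :=
    redL_eq (x := ⟨f, hf⟩) hab
  have h2 : redL A (modularFunctionFieldBar N) (hasGaussFrac_bar N A) ⟨galF N σ f, hf'⟩ =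
      rd A (coeffMap (resA A σ hσd) a) / rd A (coeffMap (resA A σ hσd) b) :=
    redL_eq (x := ⟨galF N σ f, hf'⟩) (isFrac_galF hσd hab)
  show redL A (modularFunctionFieldBar N) (hasGaussFrac_bar N A) ⟨galF N σ f, hf'⟩ =
    coeffMap (resk A σ hσd) (redL A (modularFunctionFieldBar N) (hasGaussFrac_bar N A) ⟨f, hf⟩)
  rw [h1, h2, rd_coeffMap_resA, rd_coeffMap_resA, map_div₀]

/-- **inertia acts trivially on the residue field of `w₁`** -/
theorem red1_galF_of_inertia {σ : Kbar ≃ₐ[ℚ] Kbar} (hσ : σ ∈ A.inertiaSubgroupIn ℚ) {f : FN N}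
    (hf : f ∈ (redDataBar N A).Rw) (hf' : galF N σ f ∈ (redDataBar N A).Rw) :
    (redDataBar N A).red ⟨galF N σ f, hf'⟩ = (redDataBar N A).red ⟨f, hf⟩ := by
  have hσd := Fermat.Agent.S05.mem_decompositionSubgroup_of_mem_inertiaSubgroupIn hσ
  apply Subtype.ext
  have hf0 := hf
  obtain ⟨a, b, hab⟩ := hf0
  have hredτ : ∀ y : LaurentSeries A, rd A (coeffMap (resA A σ hσd) y) = rd A y := by
    intro y
    ext n
    exact residue_resA_of_inertia A hσ _
  have h1 : redL A (modularFunctionFieldBar N) (hasGaussFrac_bar N A) ⟨f, hf⟩ = rd A a / rd A b :=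
    redL_eq (x := ⟨f, hf⟩) hab
  have h2 : redL A (modularFunctionFieldBar N) (hasGaussFrac_bar N A) ⟨galF N σ f, hf'⟩ =
      rd A (coeffMap (resA A σ hσd) a) / rd A (coeffMap (resA A σ hσd) b) :=
    redL_eq (x := ⟨galF N σ f, hf'⟩) (isFrac_galF hσd hab)
  show redL A (modularFunctionFieldBar N) (hasGaussFrac_bar N A) ⟨galF N σ f, hf'⟩ =
    redL A (modularFunctionFieldBar N) (hasGaussFrac_bar N A) ⟨f, hf⟩
  rw [h1, h2, hredτ, hredτ]

variable {h}

/-- **the decomposition group preserves `Rw₂`** -/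
theorem galF_mem_Rw2 {σ : Kbar ≃ₐ[ℚ] Kbar} (hσd : σ ∈ A.decompositionSubgroup ℚ) {f : FN N}
    (hf : f ∈ (redData2 N A h).Rw) : galF N σ f ∈ (redData2 N A h).Rw := by
  rw [mem_Rw2_iff, wAut_galF]
  exact galF_mem_Rw1 hσd hf

/-- **`red₂ (σ f) = σ~ (red₂ f)`** coefficientwise -/
theorem coe_red2_galF {σ : Kbar ≃ₐ[ℚ] Kbar} (hσd : σ ∈ A.decompositionSubgroup ℚ) {f : FN N}
    (hf : f ∈ (redData2 N A h).Rw) (hf' : galF N σ f ∈ (redData2 N A h).Rw) :
    (((redData2 N A h).red ⟨galF N σ f, hf'⟩ : FresBar N A) : LaurentSeries 𝕜) =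
      coeffMap (resk A σ hσd)
        (((redData2 N A h).red ⟨f, hf⟩ : FresBar N A) : LaurentSeries 𝕜) := by
  rw [red2_eq, red2_eq]
  have hf1 : wAut h f ∈ (redDataBar N A).Rw := hf
  have hf2 : galF N σ (wAut h f) ∈ (redDataBar N A).Rw := galF_mem_Rw1 hσd hf1
  have h1 : (⟨wAut h (galF N σ f), hf'⟩ : (redDataBar N A).Rw) = ⟨galF N σ (wAut h f), hf2⟩ :=
    Subtype.ext (wAut_galF h σ f)
  rw [h1]
  exact coe_red1_galF hσd hf1 hf2

/-- **inertia acts trivially on the residue field of `w₂`** -/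
theorem red2_galF_of_inertia {σ : Kbar ≃ₐ[ℚ] Kbar} (hσ : σ ∈ A.inertiaSubgroupIn ℚ) {f : FN N}
    (hf : f ∈ (redData2 N A h).Rw) (hf' : galF N σ f ∈ (redData2 N A h).Rw) :
    (redData2 N A h).red ⟨galF N σ f, hf'⟩ = (redData2 N A h).red ⟨f, hf⟩ := by
  have hσd := Fermat.Agent.S05.mem_decompositionSubgroup_of_mem_inertiaSubgroupIn hσ
  rw [red2_eq, red2_eq]
  have hf1 : wAut h f ∈ (redDataBar N A).Rw := hf
  have hf2 : galF N σ (wAut h f) ∈ (redDataBar N A).Rw := galF_mem_Rw1 hσd hf1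
  have h1 : (⟨wAut h (galF N σ f), hf'⟩ : (redDataBar N A).Rw) = ⟨galF N σ (wAut h f), hf2⟩ :=
    Subtype.ext (wAut_galF h σ f)
  rw [h1]
  exact red1_galF_of_inertia hσ hf1 hf2

end Gal

/-! ### Explicit values on `j` and `j_q = j(q^q)` -/

section Values

variable {q : ℕ} (N : ℕ) [NeZero N] (A : ValuationSubring Kbar) (h : ExactDvd q N)

local notation "𝕜" => ResidueField A

/-- `j_q = j(q^q)` as an element of `F_N` -/
def jQ : FN N := gen N (idxQ N h)

theorem jQ_eq_jdF [NeZero q] : jQ N h = jdF N q h.dvd := gen_eq_jdF (idxQ N h)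

theorem gen_eq_of_val_eq {x y : DivIdx N} (hxy : x.1 = y.1) : gen N x = gen N y := by
  rw [Subtype.ext hxy]

/-- **`W_q j = j_q`** -/
theorem wAut_jF : wAut h (jF N) = jQ N h := by
  rw [jF_eq_gen, wAut_gen]
  exact gen_eq_of_val_eq N (swapIdx_idxOne_val N h)

/-- **`W_q j_q = j`** -/
theorem wAut_jQ : wAut h (jQ N h) = jF N := by
  rw [← wAut_jF, wAut_wAut]

/-- the reduction `j~` of `j` as an element of the common residue field `FresBar N A` -/
def jt : FresBar N A := (redDataBar N A).red ⟨jF N, (isGaussChart_jF_1 N A).choose⟩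

theorem coe_jt : ((jt N A : FresBar N A) : LaurentSeries 𝕜) = jqModC 𝕜 := by
  have h1 : (⟨jF N, (isGaussChart_jF_1 N A).choose⟩ : (redDataBar N A).Rw) =
      ⟨gen N (idxOne N), gen_mem_Rw1 N A _⟩ := Subtype.ext (jF_eq_gen N)
  rw [jt, h1, coe_red1_gen_of_val N A (idxOne N) 1 rfl, qExpand_one_apply]

theorem isRed1_jF : (redDataBar N A).IsRed (jF N) (jt N A) :=
  ⟨(isGaussChart_jF_1 N A).choose, rfl⟩

theorem isRed2_jQ : (redData2 N A h).IsRed (jQ N h) (jt N A) := by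
  refine ⟨gen_mem_Rw2 N A h _, ?_⟩
  rw [red2_eq]
  have h1 : (⟨wAut h (jQ N h), gen_mem_Rw2 N A h _⟩ : (redDataBar N A).Rw) =
      ⟨jF N, (isGaussChart_jF_1 N A).choose⟩ := Subtype.ext (wAut_jQ N h)
  rw [h1, jt]

variable (hA : A.LiesOverPrime q)

include hA

theorem isRed1_jQ : (redDataBar N A).IsRed (jQ N h) (jt N A ^ q) := by
  have : Fact q.Prime := ⟨h.prime⟩
  have : NeZero q := ⟨h.prime.ne_zero⟩
  have : CharP 𝕜 q := charP_residueField A h.prime hA
  refine ⟨gen_mem_Rw1 N A _, ?_⟩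
  apply Subtype.ext
  show (((redDataBar N A).red ⟨gen N (idxQ N h), gen_mem_Rw1 N A _⟩ : FresBar N A) :
    LaurentSeries 𝕜) = ((jt N A : FresBar N A) : LaurentSeries 𝕜) ^ q
  rw [coe_jt, coe_red1_gen_of_val N A (idxQ N h) q rfl,
    Fermat.Agent.GJ.J3.QS.qExpand_jqModC_char]

theorem isRed2_jF : (redData2 N A h).IsRed (jF N) (jt N A ^ q) := by
  obtain ⟨hx, hred⟩ := isRed1_jQ N A h hA
  have hmem : jF N ∈ (redData2 N A h).Rw := by
    rw [mem_Rw2_iff, wAut_jF]; exact hx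
  refine ⟨hmem, ?_⟩
  rw [red2_eq, ← hred]
  congr 1
  exact Subtype.ext (wAut_jF N h)

end Values

end Fermat.Agent.GK.AL
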