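/-
GATE-K / K1(a) (helper42): the Atkin–Lehner automorphism `wAut` of `F_N` is `f ↦ f ∘ W_q` in the
realisation of `F_N` by meromorphic functions on `ℍ`:

  `realize_wAut : realize N (wAut h f) = compPM (wP h.pos D) (realize N f)`

for every Bezout datum `D : WData q (N / q)`, and its compatibility with the two degeneracy maps
`alphaB N' q`, `betaB N' q : F_{N'} → F_{N' q}` : `wAut ∘ α = β`, `wAut ∘ β = α`.
-/
import Mathlib
import Fermat.Agent.GK.AL.WAut
import Fermat.Agent.GJ.HN.NormMer

set_option autoImplicit false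

open UpperHalfPlane Complex
open scoped MatrixGroups

noncomputable section

namespace Fermat.Agent.GK.AL

open Fermat.Agent.S24 Fermat.Agent.S28 Fermat.Agent.S28.CuspExp Fermat.Agent.GJ.MerGL
open Fermat.Agent.S24_helper62 Fermat.Agent.S24_helper82 ModularCurve Fermat.Agent.GJ.HN

variable {q N : ℕ}

section Realize

variable [NeZero N] (h : ExactDvd q N) (D : WData q (N / q))

theorem realize_gen (d : DivIdx N) : realize N (gen N d) = algebraMap Hol Mer (genHol N d) := by
  rw [gen_eq_jdF, realize_jdF]
  rfl

theorem compP_wP_genHol (d : DivIdx N) :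
    compP (wP h.pos D) (genHol N d) = genHol N (swapIdx h d) := by
  apply Subtype.ext
  funext τ
  show genFn N d (wP h.pos D • τ) = genFn N (swapIdx h d) τ
  exact (genFn_swap h D d τ).symm

/-- **`W_q` on functions**: `wAut` is precomposition with the Atkin–Lehner matrix. -/
theorem realize_wAut (f : FN N) :
    realize N (wAut h f) = compPM (wP h.pos D) (realize N f) := by
  have key : (realize N).comp (wAut h).toAlgHom = (compPMₐ (wP h.pos D)).comp (realize N) := by
    apply algHom_ext_gen
    intro d
    show realize N (wAut h (gen N d)) = compPM (wP h.pos D) (realize N (gen N d))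
    rw [wAut_gen, realize_gen, realize_gen, compPM_algebraMap, compP_wP_genHol]
  exact DFunLike.congr_fun key f

end Realize

/-! ### Compatibility with the degeneracy maps -/

section Degeneracy

theorem gen_congr [NeZero N] {x y : DivIdx N} (hxy : x.1 = y.1) : gen N x = gen N y := by
  rw [Subtype.ext hxy]

theorem ExactDvd.not_dvd_left (N' : ℕ) (h : ExactDvd q (N' * q)) : ¬ q ∣ N' := by
  intro h1
  apply h.not_sq
  rw [pow_two]
  exact Nat.mul_dvd_mul_right h1 q

variable (N' : ℕ) [NeZero N'] [NeZero q] (h : ExactDvd q (N' * q))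

/-- **`W_q ∘ α = β`** -/
theorem wAut_alphaB (f : FN N') : wAut h (alphaB N' q f) = betaB N' q f := by
  have key : (wAut h).toAlgHom.comp (alphaB N' q) = betaB N' q := by
    apply algHom_ext_FN
    intro d _ hd
    show wAut h (alphaB N' q (jdF N' d hd)) = betaB N' q (jdF N' d hd)
    rw [alphaB_jdF, betaB_jdF, ← gen_eq_jdF (N := N' * q) ⟨d, hd.mul_right q⟩,
      ← gen_eq_jdF (N := N' * q) ⟨d * q, Nat.mul_dvd_mul_right hd q⟩, wAut_gen]
    apply gen_congr
    have hqd : ¬ q ∣ d := fun h1 => ExactDvd.not_dvd_left N' h (h1.trans hd)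
    rw [swapIdx_apply, swapFun_of_not_dvd h hqd, mul_comm]
  exact DFunLike.congr_fun key f

/-- **`W_q ∘ β = α`** -/
theorem wAut_betaB (f : FN N') : wAut h (betaB N' q f) = alphaB N' q f := by
  rw [← wAut_alphaB N' h f, wAut_wAut]

end Degeneracy

end Fermat.Agent.GK.AL
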