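/-
GATE-K / N10-GAL-INST (helper42): the two concrete instances of helper44's abstract
`G_ℚ`-compatible Gauss valuation `SS.GalVal N A` (`GK/SS/GalSide.lean`):

* `galVal1 N A`   : `W = (redDataBar N A).Rw`   (the Gauss valuation `w₁` at the cusp `∞`);
* `galVal2 N A h` : `W = (redData2 N A h).Rw`   (`w₂ = w₁ ∘ W_q`, `q ∥ N`).

So `SS.goodUnits (galVal1 N A) (galVal2 N A h) m` is the concrete group `U` of admissible units.
-/
import Mathlib
import Fermat.Agent.GK.AL.SecondValGal
import Fermat.Agent.GK.SS.GalSide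

set_option autoImplicit false

noncomputable section

namespace Fermat.Agent.GK.AL

open HahnSeries ModularCurve IsLocalRing
open Fermat.Agent.S24 Fermat.Agent.S24_helper62 Fermat.Agent.S24_helper82
open Fermat.Agent.GJ.J1 Fermat.Agent.GJ.J1.Val Fermat.Agent.GJ.Kum Fermat.Agent.GK.SS

section Generic

variable {K F k Ft : Type*} [Field K] [Field F] [Algebra K F] [Field k] [Field Ft] [Algebra k Ft]

/-- equal reductions ⟹ the difference has valuation `< 1` -/
theorem RedData.valuation_sub_lt_one (R : RedData K F k Ft) {a b : F} (ha : a ∈ R.Rw)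
    (hb : b ∈ R.Rw) (hab : R.red ⟨a, ha⟩ = R.red ⟨b, hb⟩) : R.Rw.valuation (a - b) < 1 := by
  have hmem : a - b ∈ R.Rw := sub_mem ha hb
  have h1 : R.red ⟨a - b, hmem⟩ = 0 := by
    have : (⟨a - b, hmem⟩ : R.Rw) = ⟨a, ha⟩ - ⟨b, hb⟩ := rfl
    rw [this, map_sub, hab, sub_self]
  have h2 := (R.red_eq_zero_iff _).mp h1
  exact (ValuationSubring.valuation_lt_one_iff R.Rw ⟨a - b, hmem⟩).mp h2

end Generic

section Inst

variable {q : ℕ} (N : ℕ) [NeZero N] (A : ValuationSubring Kbar) (h : ExactDvd q N)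

/-- unramifiedness of `w₁` in the multiplicative form of `SS.GalVal` -/
theorem unram1 (u : FN N) (hu : u ≠ 0) :
    ∃ c : Kbar, c ≠ 0 ∧ algebraMap Kbar (FN N) c * u ∈ (redDataBar N A).Rw ∧
      (algebraMap Kbar (FN N) c * u)⁻¹ ∈ (redDataBar N A).Rw := by
  obtain ⟨c, hc, h1, h2⟩ := unramified A (modularFunctionFieldBar N) (hasGaussFrac_bar N A) u hu
  have e : algebraMap Kbar (FN N) c⁻¹ * u = u / algebraMap Kbar (FN N) c := by
    rw [map_inv₀, div_eq_mul_inv, mul_comm]
  refine ⟨c⁻¹, inv_ne_zero hc, ?_, ?_⟩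
  · rw [e]; exact h1
  · rw [e]; exact h2

/-- **`w₁` as a `GalVal`** -/
def galVal1 : GalVal N A where
  W := (redDataBar N A).Rw
  mem_const a := ((redDataBar N A).mem_A_iff a).symm
  unram := unram1 N A
  stable σ hσ x hx := galF_mem_Rw1 hσ hx
  inert σ hσ x hx := by
    have hσd := Fermat.Agent.S05.mem_decompositionSubgroup_of_mem_inertiaSubgroupIn hσ
    exact RedData.valuation_sub_lt_one (redDataBar N A) (galF_mem_Rw1 hσd hx) hx
      (red1_galF_of_inertia hσ hx (galF_mem_Rw1 hσd hx))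

@[simp] theorem galVal1_W : (galVal1 N A).W = (redDataBar N A).Rw := rfl

/-- **`w₂ = w₁ ∘ W_q` as a `GalVal`** -/
def galVal2 : GalVal N A where
  W := (redData2 N A h).Rw
  mem_const a := ((redData2 N A h).mem_A_iff a).symm
  unram u hu := by
    have hu' : wAut h u ≠ 0 := (map_ne_zero_iff _ (wAut h).injective).mpr hu
    obtain ⟨c, hc, h1, h2⟩ := unram1 N A (wAut h u) hu'
    refine ⟨c, hc, ?_, ?_⟩
    · rw [mem_Rw2_iff, map_mul, AlgEquiv.commutes]; exact h1
    · rw [mem_Rw2_iff, map_inv₀, map_mul, AlgEquiv.commutes]; exact h2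
  stable σ hσ x hx := galF_mem_Rw2 hσ hx
  inert σ hσ x hx := by
    have hσd := Fermat.Agent.S05.mem_decompositionSubgroup_of_mem_inertiaSubgroupIn hσ
    exact RedData.valuation_sub_lt_one (redData2 N A h) (galF_mem_Rw2 hσd hx) hx
      (red2_galF_of_inertia hσ hx (galF_mem_Rw2 hσd hx))

@[simp] theorem galVal2_W : (galVal2 N A h).W = (redData2 N A h).Rw := rfl

/-- `IsCstUnit` for `w₁` in reduction language: `y` reduces to a nonzero constant -/
theorem isCstUnit1_of_red {y : FN N} (hy : y ∈ (redDataBar N A).Rw) {a : A}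
    (ha : A.valuation (a : Kbar) = 1)
    (hred : (redDataBar N A).red ⟨y, hy⟩ = algebraMap (ResidueField A) (FresBar N A)
      (residue A a)) : (galVal1 N A).IsCstUnit y := by
  refine ⟨(a : Kbar), ha, ?_⟩
  have hmem : algebraMap Kbar (FN N) (a : Kbar) ∈ (redDataBar N A).Rw :=
    ((redDataBar N A).mem_A_iff a).1 a.2
  refine RedData.valuation_sub_lt_one (redDataBar N A) hy hmem ?_
  rw [hred]
  exact ((redDataBar N A).red_algebraMap a).symm

/-- `IsCstUnit` for `w₂` in reduction language -/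
theorem isCstUnit2_of_red {y : FN N} (hy : y ∈ (redData2 N A h).Rw) {a : A}
    (ha : A.valuation (a : Kbar) = 1)
    (hred : (redData2 N A h).red ⟨y, hy⟩ = algebraMap (ResidueField A) (FresBar N A)
      (residue A a)) : (galVal2 N A h).IsCstUnit y := by
  refine ⟨(a : Kbar), ha, ?_⟩
  have hmem : algebraMap Kbar (FN N) (a : Kbar) ∈ (redData2 N A h).Rw :=
    ((redData2 N A h).mem_A_iff a).1 a.2
  refine RedData.valuation_sub_lt_one (redData2 N A h) hy hmem ?_
  rw [hred]
  exact ((redData2 N A h).red_algebraMap a).symm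

end Inst

end Fermat.Agent.GK.AL
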