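/-
GATE-K / CST-RED (helper42, per helper44 2411): constant reduction in VALUATION form
(`SS.GalVal.IsCstUnit`: `∃ a, v_A(a) = 1 ∧ w(y - a) < 1`) gives constant reduction in REDUCTION form
(`R.red ⟨y, _⟩ = algebraMap k Ft (res a)`), for the two concrete valuations `SS.galVal1 N A`,
`SS.galVal2 N A h` of `GK/SS/GalValInst.lean`:

* `red1_of_isCstUnit`, `red2_of_isCstUnit` : `red_i ⟨y, _⟩ = algebraMap 𝕜 (FresBar N A) (cstRed V_i y)`;
* `mem_Rw1_of_mem_goodUnitsMod`, `mem_Rw2_of_mem_goodUnitsMod`, `mem_inf_of_mem_goodUnitsMod`;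
* `red1_goodUnitsMod`, `red2_goodUnitsMod`, `cstRed1_ne_zero`, `cstRed2_ne_zero`.

These are the fields `y_mem`, `ρ1_y`, `ρ2_y`, `c1_ne` of helper47's `RedCore` (`GK/SS/LamOfRed.lean`)
for `Y := goodUnitsMod N A h m`, `c_i := cstRed`.
-/
import Mathlib
import Fermat.Agent.GK.SS.GalValInst

set_option autoImplicit false

noncomputable section

namespace Fermat.Agent.GK.AL

open ModularCurve IsLocalRing
open Fermat.Agent.S24 Fermat.Agent.GJ.J1 Fermat.Agent.GJ.J1.Val Fermat.Agent.GK.SS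
open Fermat.Agent.GJ.KumGroup Fermat.Agent.GJ.Kum.KumType

section Generic

variable {K F k Ft : Type*} [Field K] [Field F] [Algebra K F] [Field k] [Field Ft] [Algebra k Ft]

/-- valuation form ⟹ reduction form of "constant reduction" -/
theorem RedData.red_of_valuation_sub_lt_one (R : RedData K F k Ft) {y : F} {a : K}
    (ha : a ∈ R.A) (hy : R.Rw.valuation (y - algebraMap K F a) < 1) :
    ∃ hmem : y ∈ R.Rw, R.red ⟨y, hmem⟩ = algebraMap k Ft (R.res ⟨a, ha⟩) := by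
  have hamem : algebraMap K F a ∈ R.Rw := (R.mem_A_iff a).1 ha
  have hsub : y - algebraMap K F a ∈ R.Rw := (R.Rw.valuation_le_one_iff _).1 hy.le
  have hmem : y ∈ R.Rw := by
    have := add_mem hsub hamem
    rwa [sub_add_cancel] at this
  refine ⟨hmem, ?_⟩
  have h0 : R.red ⟨y - algebraMap K F a, hsub⟩ = 0 := by
    rw [R.red_eq_zero_iff]
    exact (R.Rw.valuation_lt_one_iff ⟨y - algebraMap K F a, hsub⟩).2 hy
  have e : (⟨y - algebraMap K F a, hsub⟩ : R.Rw) = ⟨y, hmem⟩ - ⟨algebraMap K F a, hamem⟩ := rfl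
  rw [e, map_sub, sub_eq_zero] at h0
  rw [h0]
  exact R.red_algebraMap ⟨a, ha⟩

end Generic

section Modular

variable {q : ℕ} (N : ℕ) [NeZero N] (A : ValuationSubring Kbar) (h : ExactDvd q N)

local notation "𝕜" => ResidueField A

variable {N A}

/-- **CST-RED for `w₁`** (any membership proof) -/
theorem red1_of_isCstUnit {y : FN N} (hy : (SS.galVal1 N A).IsCstUnit y)
    (hmem : y ∈ (redDataBar N A).Rw) :
    (redDataBar N A).red ⟨y, hmem⟩ =
      algebraMap 𝕜 (FresBar N A) ((SS.galVal1 N A).cstRed y) := by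
  obtain ⟨a, ha, hya⟩ := hy
  have haA : a ∈ A := (A.valuation_le_one_iff a).1 ha.le
  obtain ⟨hmem', hred⟩ := RedData.red_of_valuation_sub_lt_one (redDataBar N A) (a := a) haA hya
  rw [GalVal.cstRed_eq (V := SS.galVal1 N A) ha hya]
  exact hred

theorem mem_Rw1_of_isCstUnit {y : FN N} (hy : (SS.galVal1 N A).IsCstUnit y) :
    y ∈ (redDataBar N A).Rw := hy.mem

variable {h}

/-- **CST-RED for `w₂`** (any membership proof) -/
theorem red2_of_isCstUnit {y : FN N} (hy : (SS.galVal2 N A h).IsCstUnit y)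
    (hmem : y ∈ (redData2 N A h).Rw) :
    (redData2 N A h).red ⟨y, hmem⟩ =
      algebraMap 𝕜 (FresBar N A) ((SS.galVal2 N A h).cstRed y) := by
  obtain ⟨a, ha, hya⟩ := hy
  have haA : a ∈ A := (A.valuation_le_one_iff a).1 ha.le
  obtain ⟨hmem', hred⟩ := RedData.red_of_valuation_sub_lt_one (redData2 N A h) (a := a) haA hya
  rw [GalVal.cstRed_eq (V := SS.galVal2 N A h) ha hya]
  exact hred

theorem mem_Rw2_of_isCstUnit {y : FN N} (hy : (SS.galVal2 N A h).IsCstUnit y) :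
    y ∈ (redData2 N A h).Rw := hy.mem

/-! ### the admissible units -/

variable {m : ℕ}

theorem mem_Rw1_of_mem_goodUnitsMod {y : (FN N)ˣ} (hy : y ∈ goodUnitsMod N A h m) :
    (y : FN N) ∈ (redDataBar N A).Rw := hy.2.1.mem

theorem mem_Rw2_of_mem_goodUnitsMod {y : (FN N)ˣ} (hy : y ∈ goodUnitsMod N A h m) :
    (y : FN N) ∈ (redData2 N A h).Rw := hy.2.2.mem

/-- admissible units lie in `Rw₁ ⊓ Rw₂` (as a subring) -/
theorem mem_inf_of_mem_goodUnitsMod {y : (FN N)ˣ} (hy : y ∈ goodUnitsMod N A h m) :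
    (y : FN N) ∈ (redDataBar N A).Rw.toSubring ⊓ (redData2 N A h).Rw.toSubring :=
  ⟨mem_Rw1_of_mem_goodUnitsMod hy, mem_Rw2_of_mem_goodUnitsMod hy⟩

/-- **`ρ1_y`**: `red₁ y = c₁(y)` for admissible `y` -/
theorem red1_goodUnitsMod {y : (FN N)ˣ} (hy : y ∈ goodUnitsMod N A h m)
    (hmem : (y : FN N) ∈ (redDataBar N A).Rw) :
    (redDataBar N A).red ⟨(y : FN N), hmem⟩ =
      algebraMap 𝕜 (FresBar N A) ((SS.galVal1 N A).cstRed (y : FN N)) :=
  red1_of_isCstUnit hy.2.1 hmem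

/-- **`ρ2_y`**: `red₂ y = c₂(y)` for admissible `y` -/
theorem red2_goodUnitsMod {y : (FN N)ˣ} (hy : y ∈ goodUnitsMod N A h m)
    (hmem : (y : FN N) ∈ (redData2 N A h).Rw) :
    (redData2 N A h).red ⟨(y : FN N), hmem⟩ =
      algebraMap 𝕜 (FresBar N A) ((SS.galVal2 N A h).cstRed (y : FN N)) :=
  red2_of_isCstUnit hy.2.2 hmem

/-- **`c1_ne`** -/
theorem cstRed1_ne_zero {y : (FN N)ˣ} (hy : y ∈ goodUnitsMod N A h m) :
    (SS.galVal1 N A).cstRed (y : FN N) ≠ 0 := GalVal.cstRed_ne_zero hy.2.1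

theorem cstRed2_ne_zero {y : (FN N)ˣ} (hy : y ∈ goodUnitsMod N A h m) :
    (SS.galVal2 N A h).cstRed (y : FN N) ≠ 0 := GalVal.cstRed_ne_zero hy.2.2

end Modular

end Fermat.Agent.GK.AL
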